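import Fermat.Agent.S55.Local.H953.T3
import Fermat.Agent.S55.Local.H717.CyclicIndex

/-!
# S55, layer L: (T3') `CyclicH2CardStatement`, unconditional

`|H²(Gal(L/K), Lˣ)| = [L : K]` for `L / K` cyclic: helper717's glue `cyclicH2Card_of` applied to
`cyclicNormIndex` (T3).
-/

set_option autoImplicit false

namespace Fermat.Agent.S55.Local.H953

/-- **(T3')** `|H²(Gal(L/K), Lˣ)| = [L : K]` for `L / K` cyclic. -/
theorem cyclicH2Card : CyclicH2CardStatement :=
  Fermat.Agent.S55.Local.H717.cyclicH2Card_of cyclicNormIndex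

end Fermat.Agent.S55.Local.H953
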