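import Fermat.Agent.S55.Local.Spec
import Fermat.Agent.S55.H953.PadicNormIndex
import Fermat.Agent.S55.H953.DVRNormed

/-!
# S55, layer L: (T3) the local norm index theorem `CyclicNormIndexStatement`

Proof: put the `𝔪`-adic norm on `F = Frac A` (`H953/DVRNormed.lean`: `F` becomes a locally compact
ultrametric nontrivially normed field), extend it to `K` by the spectral norm and apply
`Fermat.Agent.S55.H953.norm_index_eq_finrank_of_proper`.
-/

set_option autoImplicit false

namespace Fermat.Agent.S55.Local.H953

open Fermat.Agent.S55.H953

/-- **(T3)** local norm index: `[Kˣ : N(Lˣ)] = [L : K]` for `L / K` cyclic. -/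
theorem cyclicNormIndex : CyclicNormIndexStatement := by
  intro A F _ _ _ _ _ _ _ _ _ K _ _ _ L _ _ _ _ _ _ hcyc
  letI : NontriviallyNormedField F := dvrNontriviallyNormedField A F
  haveI : IsUltrametricDist F := dvr_isUltrametricDist A F
  haveI : ProperSpace F := dvr_properSpace A F
  letI : NontriviallyNormedField K := spectralNorm.nontriviallyNormedField F K
  letI : NormedAlgebra F K := spectralNorm.normedAlgebra F K
  haveI : IsUltrametricDist K := IsUltrametricDist.of_normedAlgebra F
  haveI : ProperSpace K := FiniteDimensional.proper F K
  haveI := hcyc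
  exact norm_index_eq_finrank_of_proper K L

end Fermat.Agent.S55.Local.H953
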